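import Fermat.Agent.S55.LCBridgeCompat

/-!
# GW-Euler (4a), `T`-enlargement: shared definitions

`GQ = Gal(ℚ̄/ℚ)`, `v : Nat.Primes`, `r_v = primeLocalToGlobal v : G_v →* GQ`,
`P_v = primeLocalPlace v`.

* `locInertia v`  : the inertia subgroup `r_v⁻¹(I_{P_v})` of the local Galois group `G_v`;
* `unrZ₁ v Y`     : the LC `1`-cocycles of `G_v` in `Y` which vanish on `locInertia v`;
* `unrSub v Y`    : their classes, a submodule of `LC.H1 (levelOf r_v) Y` ("unramified classes");
* `inflZ₁ h M`, `inflH1 h M` (`h : T ⊆ T'`) : a cocycle which is level-constant for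
  `globalLevel T` is level-constant for `globalLevel T'`; the induced map
  `LC.H1 (globalLevel T) M → LC.H1 (globalLevel T') M`.
-/

set_option autoImplicit false

open CategoryTheory ExtCitation
open Fermat.Agent.CFT Fermat.Agent.S55

namespace Fermat.Agent.TW.Euler.Enlarge

local notation "Qb" => AlgebraicClosure ℚ
local notation "GQ" => (AlgebraicClosure ℚ ≃ₐ[ℚ] AlgebraicClosure ℚ)

variable {k : Type} [Field k]

/-- The inertia subgroup of the local Galois group at `v`: the preimage of the inertia group of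
`primeLocalPlace v`. -/
noncomputable def locInertia (v : Nat.Primes) : Subgroup (primeLocalGaloisGroup v) :=
  ((primeLocalPlace v).inertiaSubgroupIn ℚ).comap (primeLocalToGlobal v)

theorem mem_locInertia_iff (v : Nat.Primes) (g : primeLocalGaloisGroup v) :
    g ∈ locInertia v ↔ primeLocalToGlobal v g ∈ (primeLocalPlace v).inertiaSubgroupIn ℚ :=
  Iff.rfl

/-- The LC `1`-cocycles of the local Galois group vanishing on the inertia subgroup. -/
noncomputable def unrZ₁ (v : Nat.Primes) (Y : Rep k (primeLocalGaloisGroup v)) :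
    Submodule k ↥(LC.Z₁ (levelOf (primeLocalToGlobal v)) Y) where
  carrier := {z | ∀ g ∈ locInertia v, (z : primeLocalGaloisGroup v → Y) g = 0}
  add_mem' := by
    intro a b ha hb g hg
    change (a : primeLocalGaloisGroup v → Y) g + (b : primeLocalGaloisGroup v → Y) g = 0
    rw [ha g hg, hb g hg, add_zero]
  zero_mem' := fun _ _ => rfl
  smul_mem' := by
    intro c a ha g hg
    change c • (a : primeLocalGaloisGroup v → Y) g = 0
    rw [ha g hg, smul_zero]

theorem mem_unrZ₁_iff (v : Nat.Primes) (Y : Rep k (primeLocalGaloisGroup v))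
    (z : ↥(LC.Z₁ (levelOf (primeLocalToGlobal v)) Y)) :
    z ∈ unrZ₁ v Y ↔ ∀ g ∈ locInertia v, (z : primeLocalGaloisGroup v → Y) g = 0 := Iff.rfl

/-- **The unramified classes** in `H¹(G_v, Y)` (level cohomology). -/
noncomputable def unrSub (v : Nat.Primes) (Y : Rep k (primeLocalGaloisGroup v)) :
    Submodule k (LC.H1 (levelOf (primeLocalToGlobal v)) Y) :=
  (unrZ₁ v Y).map (LC.H1π (levelOf (primeLocalToGlobal v)) Y)

theorem mem_unrSub_iff (v : Nat.Primes) (Y : Rep k (primeLocalGaloisGroup v))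
    (x : LC.H1 (levelOf (primeLocalToGlobal v)) Y) :
    x ∈ unrSub v Y ↔ ∃ z : ↥(LC.Z₁ (levelOf (primeLocalToGlobal v)) Y),
      (∀ g ∈ locInertia v, (z : primeLocalGaloisGroup v → Y) g = 0) ∧
        LC.H1π (levelOf (primeLocalToGlobal v)) Y z = x := by
  rw [unrSub, Submodule.mem_map]
  rfl

section Infl

variable {T T' : Finset Nat.Primes}

/-- A level of `globalLevel T` is a level of `globalLevel T'` for `T ⊆ T'`. -/
theorem isLevel_of_subset (h : T ⊆ T') {N : Subgroup GQ} (hN : (globalLevel T).IsLevel N) :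
    (globalLevel T').IsLevel N := by
  obtain ⟨F, hgal, hF, rfl⟩ := hN
  exact ⟨F, hgal, hF.mono h, rfl⟩

theorem isLC₁_of_subset (h : T ⊆ T') {X : Type*} {f : GQ → X} (hf : (globalLevel T).IsLC₁ f) :
    (globalLevel T').IsLC₁ f := by
  obtain ⟨N, hN, hf⟩ := hf
  exact ⟨N, isLevel_of_subset h hN, hf⟩

theorem isSmooth_of_subset (h : T ⊆ T') {M : Rep k GQ} (hM : IsSmooth (globalLevel T) M) :
    IsSmooth (globalLevel T') M := fun a => by
  obtain ⟨N, hN, ha⟩ := hM a
  exact ⟨N, isLevel_of_subset h hN, ha⟩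

/-- Inclusion of the LC cocycles for `globalLevel T` into those for `globalLevel T'`. -/
noncomputable def inflZ₁ (h : T ⊆ T') (M : Rep k GQ) :
    ↥(LC.Z₁ (globalLevel T) M) →ₗ[k] ↥(LC.Z₁ (globalLevel T') M) :=
  Submodule.inclusion (fun _ hf => ⟨hf.1, isLC₁_of_subset h hf.2⟩)

@[simp] theorem coe_inflZ₁ (h : T ⊆ T') (M : Rep k GQ) (c : ↥(LC.Z₁ (globalLevel T) M)) :
    (inflZ₁ h M c : GQ → M) = c := rfl

/-- **Inflation** `H¹(G_T, M) → H¹(G_{T'}, M)` in level cohomology (`T ⊆ T'`). -/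
noncomputable def inflH1 (h : T ⊆ T') (M : Rep k GQ) :
    LC.H1 (globalLevel T) M →ₗ[k] LC.H1 (globalLevel T') M :=
  Submodule.mapQ _ _ (inflZ₁ h M) (fun _ hc => hc)

@[simp] theorem inflH1_mk (h : T ⊆ T') (M : Rep k GQ) (c : ↥(LC.Z₁ (globalLevel T) M)) :
    inflH1 h M (LC.H1π (globalLevel T) M c) = LC.H1π (globalLevel T') M (inflZ₁ h M c) := rfl

theorem inflH1_injective (h : T ⊆ T') (M : Rep k GQ) : Function.Injective (inflH1 h M) := by
  rw [← LinearMap.ker_eq_bot, eq_bot_iff]
  intro x hx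
  obtain ⟨c, rfl⟩ := Submodule.mkQ_surjective _ x
  rw [LinearMap.mem_ker, inflH1_mk, LC.H1π_eq_zero_iff] at hx
  rw [Submodule.mem_bot]
  exact (LC.H1π_eq_zero_iff c).2 hx

/-- Localisation commutes with inflation. -/
theorem lcResH1_inflH1 (h : T ⊆ T') (M : Rep k GQ) (v : Nat.Primes)
    (x : LC.H1 (globalLevel T) M) :
    lcResH1 M (levelCompat_globalLevel (primeLocalToGlobal v) T') (inflH1 h M x) =
      lcResH1 M (levelCompat_globalLevel (primeLocalToGlobal v) T) x := by
  obtain ⟨c, rfl⟩ := Submodule.mkQ_surjective _ x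
  rfl

end Infl

end Fermat.Agent.TW.Euler.Enlarge
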