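import Mathlib
import Fermat.Agent.CFT.Local.UnramBaseChange
import Fermat.Agent.CFT.Local.Frobenius
import Fermat.Agent.CFT.Global.LocalPowIndex
import Fermat.Agent.CFT.PT.JSInst
import Fermat.Agent.TW.Bridge.LocalInertia
import Fermat.Agent.TW.Bridge.InertiaLift
import Fermat.Agent.TW.Loc.TameGenLocal
import Fermat.Agent.TW.Loc.FrobGen

/-!
# GW-Euler (4a), local block: the unramified layers of `ℚ̄_q / ℚ_q` and the inertia group

`Gq = Gal(ℚ̄_q/ℚ_q)`, `r = localGaloisToGlobal q`, `localInertia q = r⁻¹(I_{padicPlace q})`.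

* `localInertia_le_fixingSubgroup` : the inertia group fixes every finite Galois subextension
  `E/ℚ_q` which is unramified in the sense of the CFT layer (`IsUnramExt ℤ_[q] E`);
* `exists_unramified_layer` : for every `n > 0` there is such an `E` of degree `n`, with
  `Gal(ℚ̄_q/E)` open for `levelOf r`, containing the inertia group, and a "Frobenius" `φ : Gq`
  generating `Gq` modulo `Gal(ℚ̄_q/E)`.
-/

set_option autoImplicit false
set_option linter.unusedSectionVars false
set_option linter.style.haveILetI false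

open IsLocalRing

namespace Fermat.Agent.TW.Euler.Enlarge

open Fermat.Agent.CFT Fermat.Agent.S55 Fermat.Agent.TW.Loc Fermat.Agent.TW.Bridge

variable (q : ℕ) [hq : Fact q.Prime]

local notation "Gq" => (PadicAlgCl q ≃ₐ[ℚ_[q]] PadicAlgCl q)

/-- **The inertia group fixes the unramified layers.** -/
theorem localInertia_le_fixingSubgroup (E : IntermediateField ℚ_[q] (PadicAlgCl q))
    [FiniteDimensional ℚ_[q] E] [IsGalois ℚ_[q] E] (hE : IsUnramExt ℤ_[q] E) :
    localInertia q ≤ E.fixingSubgroup := by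
  intro τ hτ
  have hτ' : ∀ y : PadicAlgCl q, ‖y‖ ≤ 1 → ‖τ y - y‖ < 1 :=
    (LocalInertia.localGaloisToGlobal_mem_inertia_iff τ).1 hτ
  haveI := intRing_isLocalRing ℤ_[q] ℚ_[q] E
  haveI := intRing_isLocalHom ℤ_[q] ℚ_[q] E
  set σ : E ≃ₐ[ℚ_[q]] E := AlgEquiv.restrictNormalHom E τ with hσdef
  have hσ : σ ∈ inertiaGal ℤ_[q] ℚ_[q] E := by
    rw [mem_inertiaGal_iff]
    intro x
    set y : integralClosure ℤ_[q] E :=
      galRestrict ℤ_[q] ℚ_[q] E (integralClosure ℤ_[q] E) σ x - x with hy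
    have hycoe : (((y : integralClosure ℤ_[q] E) : E) : PadicAlgCl q) =
        τ (((x : E) : PadicAlgCl q)) - ((x : E) : PadicAlgCl q) := by
      rw [hy, Subalgebra.coe_sub, galRestrict_coe]
      have h1 : ((σ (x : E) - (x : E) : E) : PadicAlgCl q) =
          ((σ (x : E) : E) : PadicAlgCl q) - ((x : E) : PadicAlgCl q) := rfl
      rw [h1]
      congr 1
      exact AlgEquiv.restrictNormalHom_apply E τ (x : E)
    have hx1 : ‖((x : E) : PadicAlgCl q)‖ ≤ 1 :=
      (LocalPow.mem_intRing_iff (E := E) (x : E)).1 x.2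
    have hylt : ‖(((y : integralClosure ℤ_[q] E) : E) : PadicAlgCl q)‖ < 1 := by
      rw [hycoe]
      exact hτ' _ hx1
    by_contra hmem
    have hunit : IsUnit y := by
      by_contra hnu
      exact hmem ((mem_maximalIdeal y).2 hnu)
    obtain ⟨z, hz⟩ := hunit.exists_right_inv
    have hz1 : ‖((z : E) : PadicAlgCl q)‖ ≤ 1 :=
      (LocalPow.mem_intRing_iff (E := E) (z : E)).1 z.2
    have hmul : (((y : integralClosure ℤ_[q] E) : E) : PadicAlgCl q) *
        ((z : E) : PadicAlgCl q) = 1 := by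
      have := congrArg (fun w : integralClosure ℤ_[q] E => ((w : E) : PadicAlgCl q)) hz
      simpa using this
    have hn := congrArg norm hmul
    rw [norm_mul, norm_one] at hn
    have : ‖(((y : integralClosure ℤ_[q] E) : E) : PadicAlgCl q)‖ *
        ‖((z : E) : PadicAlgCl q)‖ < 1 := by
      calc _ ≤ ‖(((y : integralClosure ℤ_[q] E) : E) : PadicAlgCl q)‖ * 1 :=
            mul_le_mul_of_nonneg_left hz1 (norm_nonneg _)
        _ < 1 := by rw [mul_one]; exact hylt
    exact absurd hn this.ne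
  have hσ1 : σ = 1 := by
    apply (resGal_bijective ℤ_[q] ℚ_[q] E hE).1
    rw [map_one]
    exact hσ
  rw [← IntermediateField.restrictNormalHom_ker E, MonoidHom.mem_ker]
  exact hσ1

/-- **Unramified layers of every degree**, with their Frobenius. -/
theorem exists_unramified_layer (n : ℕ) (hn : 0 < n) :
    ∃ (E : IntermediateField ℚ_[q] (PadicAlgCl q)) (φ : Gq),
      FiniteDimensional ℚ_[q] E ∧ IsGalois ℚ_[q] E ∧ IsUnramExt ℤ_[q] E ∧
      (levelOf (localGaloisToGlobal q)).IsOpen E.fixingSubgroup ∧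
      localInertia q ≤ E.fixingSubgroup ∧
      (padicPlace q).IsFrobeniusAt (localGaloisToGlobal q φ) q ∧
      (∀ g : Gq, ∃ j : ℕ, (φ ^ j)⁻¹ * g ∈ E.fixingSubgroup) ∧
      (∀ m : ℕ, φ ^ m ∈ E.fixingSubgroup → n ∣ m) := by
  classical
  obtain ⟨E, hfd, hdeg, hgal, hunr⟩ :=
    exists_unramified_intermediateField ℤ_[q] ℚ_[q] (PadicAlgCl q) n hn
  haveI := hfd
  haveI := hgal
  have hopen : (levelOf (localGaloisToGlobal q)).IsOpen E.fixingSubgroup :=
    PT.levelOf_local_cofinal q E hfd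
  have hI : localInertia q ≤ E.fixingSubgroup := localInertia_le_fixingSubgroup q E hunr
  obtain ⟨N, ⟨N₀, ⟨F, hFgal, hFfd, rfl⟩, rfl⟩, hNE⟩ := hopen
  haveI := hFfd
  haveI : Normal ℚ F := hFgal.to_normal
  obtain ⟨T, hTI, hTφ, -⟩ := exists_tameGen q (frobGenAt_padicPlace q) F
  have hgen : ∀ g : Gq, ∃ j : ℕ, (T.φ ^ j)⁻¹ * g ∈ E.fixingSubgroup := by
    intro g
    obtain ⟨j, i, u, hi, hu, rfl⟩ := T.gen g
    refine ⟨j, ?_⟩
    have : (T.φ ^ j)⁻¹ * (T.φ ^ j * i * u) = i * u := by group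
    rw [this]
    exact mul_mem (hI (hTI ▸ hi)) (hNE hu)
  refine ⟨E, T.φ, hfd, hgal, hunr, PT.levelOf_local_cofinal q E hfd, hI, hTφ, hgen, ?_⟩
  -- the order of `φ` modulo `Gal(Ω/E)` is `n`
  haveI := InertiaLift.isGalois_padicAlgCl q
  set r : Gq →* (E ≃ₐ[ℚ_[q]] E) := AlgEquiv.restrictNormalHom E with hr
  have hker : ∀ g : Gq, r g = 1 ↔ g ∈ E.fixingSubgroup := by
    intro g
    rw [← IntermediateField.restrictNormalHom_ker E, MonoidHom.mem_ker]
  have hsurj : Function.Surjective r := AlgEquiv.restrictNormalHom_surjective (PadicAlgCl q)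
  have hzp : ∀ σ : E ≃ₐ[ℚ_[q]] E, σ ∈ Subgroup.zpowers (r T.φ) := by
    intro σ
    obtain ⟨g, rfl⟩ := hsurj σ
    obtain ⟨j, hj⟩ := hgen g
    have h1 := (hker _).2 hj
    rw [map_mul, map_inv, map_pow, inv_mul_eq_one] at h1
    rw [← h1]
    exact Subgroup.npow_mem_zpowers _ _
  have hord : orderOf (r T.φ) = n := by
    rw [orderOf_eq_card_of_forall_mem_zpowers hzp, IsGalois.card_aut_eq_finrank, hdeg]
  intro m hm
  have h1 := (hker _).2 hm
  rw [map_pow] at h1
  rw [← hord]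
  exact orderOf_dvd_of_pow_eq_one h1

end Fermat.Agent.TW.Euler.Enlarge
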