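import Mathlib
import Fermat.Agent.TW.Euler.Enlarge.UnrField
import Fermat.Agent.TW.LocQ.UnrVanish
import Fermat.Agent.TW.LocQ.UnrClasses

/-!
# GW-Euler (4a), local block: the unramified classes of an unramified module

`Gq = Gal(ℚ̄_q/ℚ_q)`, `r = localGaloisToGlobal q`, `L = levelOf r`, `I = localInertia q`.
`Y` a smooth `Gq`-module on which `I` acts trivially.

* `frob_gen` : `Gq = ⟨φ⟩ I N` for every Frobenius lift `φ` and every level `N`;
* `unrZ₁q`, `unrSubq` : LC cocycles vanishing on `I`, and their classes in `LC.H1 L Y`;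
* for an unramified layer `E` (open, fixed by `I`, `Gq = ⟨φ⟩ Gal(ℚ̄_q/E)`, degree divisible by
  `p * d`, where `p` kills `Y` and `φ ^ d` acts trivially on `Y`):
  `layer_hvan`, `layer_fixedBy` (the hypotheses of `LocQ.unrH`), `eq_unrCoc` (every cocycle
  vanishing on `I` is an `unrCoc`), `unrSubq_eq_map_range`, and
  `card_unrSubq : |unrSubq q Y| = |Y^{Gq}|`.
-/

set_option autoImplicit false
set_option linter.unusedSectionVars false
set_option linter.style.haveILetI false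

open CategoryTheory groupCohomology IsLocalRing

namespace Fermat.Agent.TW.Euler.Enlarge

open Fermat.Agent.CFT Fermat.Agent.CFT.Cup Fermat.Agent.CFT.HExt Fermat.Agent.S55
  Fermat.Agent.TW.Loc Fermat.Agent.TW.LocQ Fermat.Agent.TW.Bridge

local notation "Qb" => AlgebraicClosure ℚ
local notation "GQ" => (AlgebraicClosure ℚ ≃ₐ[ℚ] AlgebraicClosure ℚ)

variable (q : ℕ) [hq : Fact q.Prime]

local notation "Gq" => (PadicAlgCl q ≃ₐ[ℚ_[q]] PadicAlgCl q)

/-- **Frobenius generation modulo any level**: `Gq = ⟨φ⟩ · I · N`. -/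
theorem frob_gen {φ : Gq} (hφ : (padicPlace q).IsFrobeniusAt (localGaloisToGlobal q φ) q)
    {N : Subgroup Gq} (hN : (levelOf (localGaloisToGlobal q)).IsLevel N) (g : Gq) :
    ∃ (j : ℕ) (i u : Gq), i ∈ localInertia q ∧ u ∈ N ∧ g = φ ^ j * i * u := by
  obtain ⟨N₀, ⟨F, hFgal, hFfd, rfl⟩, rfl⟩ := hN
  haveI := hFfd
  haveI : Normal ℚ F := hFgal.to_normal
  have hstab : ∀ (g : GQ), ∀ x ∈ F, g x ∈ F := by
    intro g x hx
    have := AlgEquiv.restrictNormal_commutes g F ⟨x, hx⟩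
    rw [show algebraMap F Qb ⟨x, hx⟩ = x from rfl] at this
    rw [← this]
    exact (g.restrictNormal F ⟨x, hx⟩).2
  obtain ⟨n, i, u, hi, hu, hg⟩ := frobGenAt_padicPlace q _ hφ F hFfd hstab
    (localGaloisToGlobal q g) (localGaloisToGlobal_mem_decompositionSubgroup q g)
  have hiD : i ∈ (padicPlace q).decompositionSubgroup ℚ :=
    ((Fermat.Agent.S14.mem_inertiaSubgroupIn_iff _ _).mp hi).1
  obtain ⟨ι, hι⟩ := exists_localGaloisToGlobal_eq q hiD
  refine ⟨n, ι, (φ ^ n * ι)⁻¹ * g, ?_, ?_, by group⟩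
  · show localGaloisToGlobal q ι ∈ (padicPlace q).inertiaSubgroupIn ℚ
    rw [hι]
    exact hi
  · show localGaloisToGlobal q ((φ ^ n * ι)⁻¹ * g) ∈ F.fixingSubgroup
    rw [map_mul, map_inv, map_mul, map_pow, hι, hg]
    have : (localGaloisToGlobal q φ ^ n * i)⁻¹ * (localGaloisToGlobal q φ ^ n * i * u) = u := by
      group
    rw [this]
    exact hu

section Defs

variable {k : Type} [CommRing k] (Y : Rep.{0} k (PadicAlgCl q ≃ₐ[ℚ_[q]] PadicAlgCl q))

/-- The LC `1`-cocycles vanishing on the inertia group. -/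
noncomputable def unrZ₁q : Submodule k ↥(LC.Z₁ (levelOf (localGaloisToGlobal q)) Y) where
  carrier := {z | ∀ g ∈ localInertia q, z.1 g = 0}
  add_mem' := by
    intro a b ha hb g hg
    change a.1 g + b.1 g = 0
    rw [ha g hg, hb g hg, add_zero]
  zero_mem' := fun _ _ => rfl
  smul_mem' := by
    intro c a ha g hg
    change c • a.1 g = 0
    rw [ha g hg, smul_zero]

/-- The unramified classes in `LC.H1`. -/
noncomputable def unrSubq : Submodule k (LC.H1 (levelOf (localGaloisToGlobal q)) Y) :=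
  (unrZ₁q q Y).map (LC.H1π (levelOf (localGaloisToGlobal q)) Y)

end Defs

section Layer

local instance : IsGalois ℚ_[q] (PadicAlgCl q) := InertiaLift.isGalois_padicAlgCl q

variable {q}
variable (E : IntermediateField ℚ_[q] (PadicAlgCl q)) [FiniteDimensional ℚ_[q] E]
  [IsGalois ℚ_[q] E]
  (hopen : (levelOf (localGaloisToGlobal q)).IsOpen E.fixingSubgroup)
  (hIE : localInertia q ≤ E.fixingSubgroup) {φ : PadicAlgCl q ≃ₐ[ℚ_[q]] PadicAlgCl q}
  (hφ : (padicPlace q).IsFrobeniusAt (localGaloisToGlobal q φ) q)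
  (hgen : ∀ g : PadicAlgCl q ≃ₐ[ℚ_[q]] PadicAlgCl q, ∃ j : ℕ, (φ ^ j)⁻¹ * g ∈ E.fixingSubgroup)
  {n : ℕ}
  (hdvd : ∀ m : ℕ, φ ^ m ∈ E.fixingSubgroup → n ∣ m)
  {k : Type} [CommRing k] {Y : Rep.{0} k (PadicAlgCl q ≃ₐ[ℚ_[q]] PadicAlgCl q)}
  (hY : IsSmooth (levelOf (localGaloisToGlobal q)) Y)
  (hur : ∀ i ∈ localInertia q, ∀ y : Y, Y.ρ i y = y)
  {p d : ℕ} (hpY : ∀ y : Y, p • y = 0) (hd : ∀ y : Y, Y.ρ (φ ^ d) y = y) (hn : p * d ∣ n)

include hdvd hpY hd hn in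
/-- The norm condition `hvan` of `LocQ.unrH`. -/
theorem layer_hvan : ∀ m : ℕ, φ ^ m ∈ E.fixingSubgroup → ∀ y : Y, pSum Y φ m y = 0 :=
  fun m hm y => pSum_eq_zero_of_dvd (Y := Y) φ (p := p) (d := d) hpY hd (hn.trans (hdvd m hm)) y

include hopen hIE hφ hdvd hY hur hd hn in
/-- `Gal(ℚ̄_q/E)` acts trivially on `Y`. -/
theorem layer_fixedBy (y : Y) : FixedBy Y E.fixingSubgroup y := by
  intro g hg
  obtain ⟨N₀, hN₀, hy⟩ := hY y
  obtain ⟨N₁, hN₁, hN₁U⟩ := hopen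
  obtain ⟨N, hN, hNle⟩ := (levelOf (localGaloisToGlobal q)).directed hN₀ hN₁
  obtain ⟨j, i, u, hi, hu, rfl⟩ := frob_gen q hφ hN g
  have hiU : i ∈ E.fixingSubgroup := hIE hi
  have huU : u ∈ E.fixingSubgroup := hN₁U (hNle hu).2
  have hφj : φ ^ j ∈ E.fixingSubgroup := by
    have h1 : φ ^ j = (φ ^ j * i * u) * u⁻¹ * i⁻¹ := by group
    rw [h1]
    exact mul_mem (mul_mem hg (inv_mem huU)) (inv_mem hiU)
  obtain ⟨t, ht⟩ := (Dvd.dvd.mul_left (dvd_refl d) p).trans (hn.trans (hdvd j hφj))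
  have hd1 : Y.ρ (φ ^ d) = 1 := by
    apply LinearMap.ext
    intro y
    exact hd y
  have hφjy : Y.ρ (φ ^ j) = 1 := by
    rw [ht, pow_mul, map_pow, hd1, one_pow]
  rw [map_mul, map_mul, Module.End.mul_apply, Module.End.mul_apply, hy u (hNle hu).1, hur i hi,
    hφjy, Module.End.one_apply]

include hopen hIE hφ hdvd hY hur hpY hd hn in
/-- **Every LC cocycle vanishing on inertia is an `unrCoc`.** -/
theorem eq_unrCoc (z : ↥(LC.Z₁ (levelOf (localGaloisToGlobal q)) Y))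
    (hz : ∀ g ∈ localInertia q, z.1 g = 0) :
    z.1 = unrCoc hgen (z.1 φ) := by
  obtain ⟨N₂, hN₂, hzN⟩ := z.2.2
  obtain ⟨N₁, hN₁, hN₁U⟩ := hopen
  obtain ⟨N, hN, hNle⟩ := (levelOf (localGaloisToGlobal q)).directed hN₂ hN₁
  exact eq_unrCoc_of_vanish hgen (layer_hvan E hdvd hpY hd hn) (localInertia q) N hIE
    (fun u hu => hN₁U (hNle hu).2) hur (fun g => frob_gen q hφ hN g) z.2.1 hz
    (fun g s hs => hzN g s (hNle hs).1)
    (layer_fixedBy E ⟨N₁, hN₁, hN₁U⟩ hIE hφ hdvd hY hur hd hn _)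

include hIE in
/-- The cocycles `unrCoc a` vanish on inertia. -/
theorem unrCoc_mem_unrZ₁q (hvan : ∀ m : ℕ, φ ^ m ∈ E.fixingSubgroup → ∀ y : Y, pSum Y φ m y = 0)
    (a : fixedSub Y E.fixingSubgroup) :
    (⟨unrCoc hgen (a : Y), unrCoc_mem_cocycles₁ hgen hvan a.2,
        isLC₁_unrCoc hopen hgen hvan (a : Y)⟩ :
      ↥(LC.Z₁ (levelOf (localGaloisToGlobal q)) Y)) ∈ unrZ₁q q Y :=
  fun g hg => unrCoc_of_mem hgen hvan _ (hIE hg)

include hIE hφ hdvd hur hpY hd hn in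
/-- **The unramified classes are the image of `LocQ.unrH`.** -/
theorem unrSubq_eq_map_range :
    unrSubq q Y = (LinearMap.range
      (unrH hY hopen hgen (layer_hvan E hdvd hpY hd hn))).map (LC.h1Equiv hY).toLinearMap := by
  have hvan := layer_hvan (Y := Y) E hdvd hpY hd hn
  apply le_antisymm
  · rintro _ ⟨z, hz, rfl⟩
    have hzeq := eq_unrCoc E hopen hIE hφ hgen hdvd hY hur hpY hd hn z hz
    have hfix : FixedBy Y E.fixingSubgroup (z.1 φ) :=
      layer_fixedBy E hopen hIE hφ hdvd hY hur hd hn _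
    refine ⟨unrH hY hopen hgen hvan ⟨z.1 φ, hfix⟩, ⟨_, rfl⟩, ?_⟩
    change LC.h1Equiv hY (LC.mkH1 hY ⟨unrCoc hgen (z.1 φ),
      unrCoc_mem_cocycles₁ hgen hvan hfix, isLC₁_unrCoc hopen hgen hvan _⟩) = _
    rw [LC.h1Equiv_mkH1]
    congr 1
    exact Subtype.ext hzeq.symm
  · rintro _ ⟨_, ⟨a, rfl⟩, rfl⟩
    refine ⟨_, unrCoc_mem_unrZ₁q E hopen hIE hgen hvan a, ?_⟩
    change _ = LC.h1Equiv hY (LC.mkH1 hY ⟨unrCoc hgen (a : Y),
      unrCoc_mem_cocycles₁ hgen hvan a.2, isLC₁_unrCoc hopen hgen hvan _⟩)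
    rw [LC.h1Equiv_mkH1]

include hopen hIE hφ hgen hdvd hY hur hpY hd hn in
/-- **Counting the unramified classes**: `|unrSubq q Y| = |Y^{Gq}|`. -/
theorem card_unrSubq [Finite Y] : Nat.card (unrSubq q Y) = Nat.card (Y.ρ.invariants) := by
  rw [unrSubq_eq_map_range E hopen hIE hφ hgen hdvd hY hur hpY hd hn,
    ← card_range_unrH hY hopen hgen (layer_hvan E hdvd hpY hd hn)]
  exact (Nat.card_congr ((LC.h1Equiv hY).submoduleMap _).toEquiv).symm

end Layer

end Fermat.Agent.TW.Euler.Enlarge
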