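import Mathlib
import Fermat.Agent.TW.Euler.Enlarge.UnrLocal
import Fermat.Agent.TW.LocQ.OrthPair

/-!
# GW-Euler (4a), local block: unramified classes are orthogonal (local Galois group of `ℚ_q`)

`Gq = Gal(ℚ̄_q/ℚ_q)`, `L = levelOf (localGaloisToGlobal q)`.  For finite smooth `ℤ[Gq]`-modules
`X`, `X'` killed by `p > 0`, on which the inertia group acts trivially, and ANY pairing
`B : X' × X → ℚ̄_qˣ`: the cup product (in `H²(Gq, ℚ̄_qˣ)`, LC complex) of the classes of two LC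
cocycles vanishing on the inertia group is zero.
-/

set_option autoImplicit false
set_option linter.unusedSectionVars false
set_option linter.style.haveILetI false

open CategoryTheory groupCohomology IsLocalRing

namespace Fermat.Agent.TW.Euler.Enlarge

open Fermat.Agent.CFT Fermat.Agent.CFT.Cup Fermat.Agent.CFT.HExt Fermat.Agent.S55
  Fermat.Agent.TW.Loc Fermat.Agent.TW.LocQ Fermat.Agent.TW.Bridge

variable (q : ℕ) [hq : Fact q.Prime]

local notation "Gq" => (PadicAlgCl q ≃ₐ[ℚ_[q]] PadicAlgCl q)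

local instance : IsGalois ℚ_[q] (PadicAlgCl q) := InertiaLift.isGalois_padicAlgCl q

/-- The class of an LC cocycle vanishing on inertia is `unrH` of its value at `φ`. -/
theorem mkH1_eq_unrH (E : IntermediateField ℚ_[q] (PadicAlgCl q)) [FiniteDimensional ℚ_[q] E]
    [IsGalois ℚ_[q] E]
    (hopen : (levelOf (localGaloisToGlobal q)).IsOpen E.fixingSubgroup)
    (hIE : localInertia q ≤ E.fixingSubgroup) {φ : PadicAlgCl q ≃ₐ[ℚ_[q]] PadicAlgCl q}
    (hφ : (padicPlace q).IsFrobeniusAt (localGaloisToGlobal q φ) q)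
    (hgen : ∀ g : PadicAlgCl q ≃ₐ[ℚ_[q]] PadicAlgCl q, ∃ j : ℕ, (φ ^ j)⁻¹ * g ∈ E.fixingSubgroup)
    {n : ℕ} (hdvd : ∀ m : ℕ, φ ^ m ∈ E.fixingSubgroup → n ∣ m)
    {k : Type} [CommRing k] {Y : Rep.{0} k (PadicAlgCl q ≃ₐ[ℚ_[q]] PadicAlgCl q)}
    (hY : IsSmooth (levelOf (localGaloisToGlobal q)) Y)
    (hur : ∀ i ∈ localInertia q, ∀ y : Y, Y.ρ i y = y)
    {p d : ℕ} (hpY : ∀ y : Y, p • y = 0) (hd : ∀ y : Y, Y.ρ (φ ^ d) y = y) (hn : p * d ∣ n)
    (z : ↥(LC.Z₁ (levelOf (localGaloisToGlobal q)) Y))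
    (hz : ∀ g ∈ localInertia q, z.1 g = 0) :
    LC.mkH1 hY z = unrH hY hopen hgen (layer_hvan E hdvd hpY hd hn)
      ⟨z.1 φ, layer_fixedBy E hopen hIE hφ hdvd hY hur hd hn _⟩ := by
  have hvan := layer_hvan (Y := Y) E hdvd hpY hd hn
  have hfix : FixedBy Y E.fixingSubgroup (z.1 φ) :=
    layer_fixedBy E hopen hIE hφ hdvd hY hur hd hn _
  have hzeq := eq_unrCoc E hopen hIE hφ hgen hdvd hY hur hpY hd hn z hz
  change LC.mkH1 hY z = LC.mkH1 hY ⟨unrCoc hgen (z.1 φ),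
    unrCoc_mem_cocycles₁ hgen hvan hfix, isLC₁_unrCoc hopen hgen hvan _⟩
  congr 1
  exact Subtype.ext hzeq

/-- **Unramified classes are orthogonal** for the cup product of any pairing into `ℚ̄_qˣ`. -/
theorem cupH_mkH1_eq_zero_of_unr
    {X X' : Rep.{0} ℤ (PadicAlgCl q ≃ₐ[ℚ_[q]] PadicAlgCl q)}
    (B : RepPairing X' X (galU ℚ_[q] (PadicAlgCl q)))
    (hC : IsSmooth (levelOf (localGaloisToGlobal q)) (galU ℚ_[q] (PadicAlgCl q)))
    (hX : IsSmooth (levelOf (localGaloisToGlobal q)) X)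
    (hX' : IsSmooth (levelOf (localGaloisToGlobal q)) X') [Finite X] [Finite X']
    (hurX : ∀ i ∈ localInertia q, ∀ y : X, X.ρ i y = y)
    (hurX' : ∀ i ∈ localInertia q, ∀ y : X', X'.ρ i y = y)
    {p : ℕ} (hp : 0 < p) (hpX : ∀ x : X, p • x = 0) (hpX' : ∀ x : X', p • x = 0)
    (zb : ↥(LC.Z₁ (levelOf (localGaloisToGlobal q)) X'))
    (hzb : ∀ g ∈ localInertia q, zb.1 g = 0)
    (za : ↥(LC.Z₁ (levelOf (localGaloisToGlobal q)) X))
    (hza : ∀ g ∈ localInertia q, za.1 g = 0) :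
    (LC.cxPairing B hX' hX hC).cupH 1 1 2 rfl (LC.mkH1 hX' zb) (LC.mkH1 hX za) = 0 := by
  classical
  -- a common level acting trivially on `X` and `X'`
  obtain ⟨N₁, hN₁, hfix₁⟩ := hX.exists_level_of_finite (Set.toFinite (Set.univ : Set X))
  obtain ⟨N₂, hN₂, hfix₂⟩ := hX'.exists_level_of_finite (Set.toFinite (Set.univ : Set X'))
  obtain ⟨N₀, hN₀, hN₀le⟩ := (levelOf (localGaloisToGlobal q)).directed hN₁ hN₂
  haveI : N₀.Normal := (levelOf (localGaloisToGlobal q)).normal hN₀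
  haveI : N₀.FiniteIndex := (levelOf (localGaloisToGlobal q)).finiteIndex hN₀
  set d := N₀.index with hd
  have hdpos : 0 < d := Nat.pos_of_ne_zero Subgroup.FiniteIndex.index_ne_zero
  obtain ⟨E, φ, hfd, hgal, hunr, hopen, hIE, hφ, hgen, hdvd⟩ :=
    exists_unramified_layer q (p * d) (Nat.mul_pos hp hdpos)
  haveI := hfd
  haveI := hgal
  have hφd : φ ^ d ∈ N₀ := Subgroup.pow_index_mem N₀ φ
  have hdX : ∀ y : X, X.ρ (φ ^ d) y = y := fun y =>
    hfix₁ y (Set.mem_univ y) _ (hN₀le hφd).1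
  have hdX' : ∀ y : X', X'.ρ (φ ^ d) y = y := fun y =>
    hfix₂ y (Set.mem_univ y) _ (hN₀le hφd).2
  rw [mkH1_eq_unrH q E hopen hIE hφ hgen hdvd hX' hurX' hpX' hdX' (dvd_refl _) zb hzb,
    mkH1_eq_unrH q E hopen hIE hφ hgen hdvd hX hurX hpX hdX (dvd_refl _) za hza]
  -- the Frobenius of `E`
  set r : (PadicAlgCl q ≃ₐ[ℚ_[q]] PadicAlgCl q) →* (E ≃ₐ[ℚ_[q]] E) :=
    AlgEquiv.restrictNormalHom E with hr
  have hker : ∀ g : PadicAlgCl q ≃ₐ[ℚ_[q]] PadicAlgCl q, r g = 1 ↔ g ∈ E.fixingSubgroup := by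
    intro g
    rw [← IntermediateField.restrictNormalHom_ker E, MonoidHom.mem_ker]
  have hsurj : Function.Surjective r := AlgEquiv.restrictNormalHom_surjective (PadicAlgCl q)
  have hgenb : ∀ σ : E ≃ₐ[ℚ_[q]] E, ∃ j : ℕ, (r φ) ^ j = σ := by
    intro σ
    obtain ⟨g, rfl⟩ := hsurj σ
    obtain ⟨j, hj⟩ := hgen g
    have h1 := (hker _).2 hj
    rw [map_mul, map_inv, map_pow, inv_mul_eq_one] at h1
    exact ⟨j, h1⟩
  exact cupH_unrH_unrH_of_pairing ℤ_[q] E hC B hX hX' hopen hgen _ _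
    ((isUnramifiedExt_iff_isUnramExt ℤ_[q] ℚ_[q] E).2 hunr) hgenb hp hpX _ _

end Fermat.Agent.TW.Euler.Enlarge
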