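import Mathlib
import Fermat.Agent.TW.Euler.Enlarge.OrthLocal
import Fermat.Agent.TW.Euler.Enlarge.Defs
import Fermat.Agent.TW.GWB.BridgeOut

/-!
# GW-Euler (4a), local block: unramified classes are orthogonal for the local Tate pairing

Vocabulary of `TW/GWB/BridgeOut.lean` (helper21): `p` a prime, `S ∋ p`, `M`, `M'` smooth
`𝔽_p`-representations of `G_ℚ` with `θ₀ : M' ≅ Hom(M, μ_p)`, `tateB v` the local Tate pairing at
`v ∈ S` on `LC.H1 (levelOf r_v) (Res M) × LC.H1 (levelOf r_v) (Res M')`.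

* `cxH1Equiv_mk` : `cxH1Equiv` on the class of a cocycle;
* `tateB_eq_zero_of_unr` : if the inertia group of `primeLocalPlace v` acts trivially on `M` and
  `M'` then `tateB v a b = 0` for unramified classes `a`, `b` (`Enlarge.unrSub`).
-/

set_option autoImplicit false
set_option linter.unusedSectionVars false
set_option linter.style.haveILetI false

open CategoryTheory ExtCitation

noncomputable section

namespace Fermat.Agent.TW.Euler.Enlarge

open Fermat.Agent.CFT Fermat.Agent.CFT.PT Fermat.Agent.S55 HExt Fermat.Agent.TW.GWB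
  Fermat.Agent.TW.Loc Fermat.Agent.TW.LocQ

local notation "Qb" => AlgebraicClosure ℚ
local notation "GQ" => (AlgebraicClosure ℚ ≃ₐ[ℚ] AlgebraicClosure ℚ)

attribute [local instance 2000] Rep.hV2
attribute [local instance 3000] finite_repZ

/-- `cxH1Equiv` on the class of a cocycle. -/
theorem cxH1Equiv_mk {k G : Type} [CommRing k] [Group G] {L : LevelStructure G} (A : Rep k G)
    (hA : IsSmooth L A) (z : ↥(LC.Z₁ L A)) :
    cxH1Equiv A hA (LC.H1π L A z) =
      LC.mkH1 ((isSmooth_repZ_iff L A).2 hA) (repZZ₁Equiv L A z) := by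
  rw [cxH1Equiv_apply, repZH1Equiv_mk, LinearEquiv.symm_apply_eq, LC.h1Equiv_mkH1]

variable (p : ℕ) [hp : Fact p.Prime] (S : Finset Nat.Primes) (hpS : pPrime p ∈ S)
  (M M' : Rep (ZMod p) GQ) [FiniteDimensional (ZMod p) M] [FiniteDimensional (ZMod p) M']
  (hM : IsSmooth (globalLevel S) M) (hM' : IsSmooth (globalLevel S) M')
  (θ₀ : repZ M' ⟶ (Rep.ihom (repZ M)).obj (muRep p)) (hθ₀ : Function.Bijective θ₀.hom)

/-- **Unramified classes are orthogonal for the local Tate pairing.** -/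
theorem tateB_eq_zero_of_unr (v : ↥S)
    (hurM : ∀ σ ∈ (primeLocalPlace v.1).inertiaSubgroupIn ℚ, ∀ m : M, M.ρ σ m = m)
    (hurM' : ∀ σ ∈ (primeLocalPlace v.1).inertiaSubgroupIn ℚ, ∀ m : M', M'.ρ σ m = m)
    {a : LC.H1 (levelOf (primeLocalToGlobal v.1)) (Rep.res (primeLocalToGlobal v.1) M)}
    (ha : a ∈ unrSub v.1 (Rep.res (primeLocalToGlobal v.1) M))
    {b : LC.H1 (levelOf (primeLocalToGlobal v.1)) (Rep.res (primeLocalToGlobal v.1) M')}
    (hb : b ∈ unrSub v.1 (Rep.res (primeLocalToGlobal v.1) M')) :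
    tateB p S hpS M M' hM hM' θ₀ hθ₀ v a b = 0 := by
  letI : Fact ((v.1 : ℕ)).Prime := ⟨v.1.2⟩
  obtain ⟨za, hza, rfl⟩ := ha
  obtain ⟨zb, hzb, rfl⟩ := hb
  rw [tateB_apply]
  change tateLoc p S hpS (repZ M) ((isSmooth_repZ_iff (globalLevel S) M).2 hM)
    (nsmul_repZ_eq_zero p M) ((isSmooth_repZ_iff (globalLevel S) M').2 hM') θ₀ hθ₀
    (fun q : ↥S => invLoc p q.1) v (locE' p S M' hM' v _) (locE p S M hM v _) = 0
  rw [tateLoc_eq]
  rw [LatticeRes.dual_apply]
  refine (congrArg (invLoc p v.1) (Subtype.ext ?_)).trans (map_zero _)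
  rw [coe_pairP_midIdentLoc]
  change _ = (0 : (LC.cx (isSmooth_primeUnitsRep v.1)).H 2)
  rw [show locE' p S M' hM' v (LC.H1π _ _ zb) = LC.mkH1 _ (repZZ₁Equiv _ _ zb) from
      cxH1Equiv_mk _ _ zb,
    show locE p S M hM v (LC.H1π _ _ za) = LC.mkH1 _ (repZZ₁Equiv _ _ za) from
      cxH1Equiv_mk _ _ za]
  haveI : Finite ↑(Rep.res (primeLocalToGlobal v.1) (repZ M)) := finite_repZ p M
  haveI : Finite ↑(Rep.res (primeLocalToGlobal v.1) (repZ M')) := finite_repZ p M'
  exact cupH_mkH1_eq_zero_of_unr (v.1 : ℕ) (tatePair p S hpS (repZ M) θ₀ v)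
    (isSmooth_primeUnitsRep v.1) _ _
    (fun i hi y => hurM _ hi y) (fun i hi y => hurM' _ hi y) hp.out.pos
    (nsmul_repZ_eq_zero p M) (nsmul_repZ_eq_zero p M')
    _ (fun g hg => hzb g hg) _ (fun g hg => hza g hg)

end Fermat.Agent.TW.Euler.Enlarge

end
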