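import Mathlib
import Fermat.Agent.TW.Euler.Enlarge.OrthTate
import Fermat.Agent.TW.Euler.Fin.Smooth
import Fermat.Agent.TW.GWB.FinH1
import Fermat.Agent.TW.GW.LinAlg
import Fermat.Agent.TW.Loc.UnrDual

/-!
# GW-Euler (4a), local block (L2): the unramified classes at a prime `v ∉ T`

`M` a finite-dimensional `𝔽_p`-representation of `G_ℚ`, smooth for `globalLevel T` (`p ∈ T`),
`M' = dualTw p M`, `v ∉ T` a prime (so `v ≠ p` and `M`, `M'` are unramified at `v`).

* `card_unrSub`, `finrank_unrSub_res` : `dim unrSub v (Res M) = dim (Res M)^{G_v}`;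
* `orthR_unrSub` : for the local Tate pairing `tateB v` (at any `S ⊇ T`, `v ∈ S`):
  `(unrSub v (Res M))^⊥ = unrSub v (Res M')`.
-/

set_option autoImplicit false
set_option linter.unusedSectionVars false
set_option linter.style.haveILetI false

open CategoryTheory ExtCitation Module

noncomputable section

namespace Fermat.Agent.TW.Euler.Enlarge

open Fermat.Agent.CFT Fermat.Agent.CFT.PT Fermat.Agent.S55 HExt Fermat.Agent.TW.GWB
  Fermat.Agent.TW.Loc Fermat.Agent.TW.LocQ Fermat.Agent.TW.GW.LinAlg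

local notation "Qb" => AlgebraicClosure ℚ
local notation "GQ" => (AlgebraicClosure ℚ ≃ₐ[ℚ] AlgebraicClosure ℚ)

attribute [local instance 2000] Rep.hV2
attribute [local instance 3000] finite_repZ

/-- Counting the unramified classes (local Galois group of `ℚ_q`, `ℕ`-dialect). -/
theorem card_unrSubq_of_unramified (q : ℕ) [hq : Fact q.Prime] {k : Type} [CommRing k]
    (Y : Rep.{0} k (PadicAlgCl q ≃ₐ[ℚ_[q]] PadicAlgCl q)) [Finite Y]
    (hY : IsSmooth (levelOf (localGaloisToGlobal q)) Y)
    (hur : ∀ i ∈ localInertia q, ∀ y : Y, Y.ρ i y = y)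
    {p : ℕ} (hp : 0 < p) (hpY : ∀ y : Y, p • y = 0) :
    Nat.card (unrSubq q Y) = Nat.card (Y.ρ.invariants) := by
  classical
  obtain ⟨N₀, hN₀, hfix⟩ := hY.exists_level_of_finite (Set.toFinite (Set.univ : Set Y))
  haveI : N₀.Normal := (levelOf (localGaloisToGlobal q)).normal hN₀
  haveI : N₀.FiniteIndex := (levelOf (localGaloisToGlobal q)).finiteIndex hN₀
  have hdpos : 0 < N₀.index := Nat.pos_of_ne_zero Subgroup.FiniteIndex.index_ne_zero
  obtain ⟨E, φ, hfd, hgal, hunr, hopen, hIE, hφ, hgen, hdvd⟩ :=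
    exists_unramified_layer q (p * N₀.index) (Nat.mul_pos hp hdpos)
  haveI := hfd
  haveI := hgal
  have hd : ∀ y : Y, Y.ρ (φ ^ N₀.index) y = y := fun y =>
    hfix y (Set.mem_univ y) _ (Subgroup.pow_index_mem N₀ φ)
  exact card_unrSubq E hopen hIE hφ hgen hdvd hY hur hpY hd (dvd_refl _)

/-- Counting the unramified classes, vocabulary of `S55.lcLocTotal₁`. -/
theorem card_unrSub (v : Nat.Primes) {k : Type} [Field k]
    (Y : Rep k (primeLocalGaloisGroup v)) [Finite Y]
    (hY : IsSmooth (levelOf (primeLocalToGlobal v)) Y)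
    (hur : ∀ i ∈ locInertia v, ∀ y : Y, Y.ρ i y = y)
    {p : ℕ} (hp : 0 < p) (hpY : ∀ y : Y, p • y = 0) :
    Nat.card (unrSub v Y) = Nat.card (Y.ρ.invariants) := by
  letI : Fact ((v : ℕ)).Prime := ⟨v.2⟩
  exact card_unrSubq_of_unramified (v : ℕ) Y hY hur hp hpY

variable {p : ℕ} [hp : Fact p.Prime] {T : Finset Nat.Primes}

/-- Inertia outside `T` acts trivially on a module which is smooth for `globalLevel T`. -/
theorem rho_eq_self_of_mem_inertia (M : Rep (ZMod p) GQ) (hM : IsSmooth (globalLevel T) M)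
    (v : Nat.Primes) (hvT : v ∉ T) (σ : GQ) (hσ : σ ∈ (primeLocalPlace v).inertiaSubgroupIn ℚ)
    (m : M) : M.ρ σ m = m := by
  letI : Fact ((v : ℕ)).Prime := ⟨v.2⟩
  have h := Fermat.Agent.TW.Euler.Fin.hMur_of_isSmooth T M hM v hvT (primeLocalPlace v)
    (padicPlace_liesOverPrime (v : ℕ)) σ hσ
  rw [h, Module.End.one_apply]

/-- `dim unrSub v (Res M) = h⁰_v(M)` for `M` smooth for `globalLevel T`, `v ∉ T`. -/
theorem finrank_unrSub_res (M : Rep (ZMod p) GQ) [Module.Finite (ZMod p) M]
    (hM : IsSmooth (globalLevel T) M) (v : Nat.Primes) (hvT : v ∉ T) :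
    finrank (ZMod p) (unrSub v (Rep.res (primeLocalToGlobal v) M)) =
      finrank (ZMod p) (Rep.res (primeLocalToGlobal v) M).ρ.invariants := by
  haveI : Finite M := Module.finite_of_finite (ZMod p)
  haveI : Finite (Rep.res (primeLocalToGlobal v) M) := ‹Finite M›
  haveI : Module.Finite (ZMod p) (Rep.res (primeLocalToGlobal v) M) := ‹Module.Finite (ZMod p) M›
  haveI := Fermat.Agent.TW.GWB.finite_H1_local v (Rep.res (primeLocalToGlobal v) M)
    ((levelCompat_globalLevel (primeLocalToGlobal v) T).isSmooth_res hM)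
  haveI : Module.Finite (ZMod p)
      (LC.H1 (levelOf (primeLocalToGlobal v)) (Rep.res (primeLocalToGlobal v) M)) :=
    Module.Finite.of_finite
  have hcard := card_unrSub v (Rep.res (primeLocalToGlobal v) M)
    ((levelCompat_globalLevel (primeLocalToGlobal v) T).isSmooth_res hM)
    (fun i hi y => rho_eq_self_of_mem_inertia M hM v hvT _ hi y) hp.out.pos
    (fun y => by
      have h : (p : ZMod p) • y = 0 := by rw [ZMod.natCast_self, zero_smul]
      rwa [Nat.cast_smul_eq_nsmul] at h)
  have h1 : Nat.card (unrSub v (Rep.res (primeLocalToGlobal v) M)) =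
      p ^ finrank (ZMod p) (unrSub v (Rep.res (primeLocalToGlobal v) M)) := by
    rw [Module.natCard_eq_pow_finrank (K := ZMod p), Nat.card_zmod]
  have h2 : Nat.card ((Rep.res (primeLocalToGlobal v) M).ρ.invariants) =
      p ^ finrank (ZMod p) ((Rep.res (primeLocalToGlobal v) M).ρ.invariants) := by
    rw [Module.natCard_eq_pow_finrank (K := ZMod p), Nat.card_zmod]
  rw [h1, h2] at hcard
  exact Nat.pow_right_injective hp.out.two_le hcard

/-- `(unrSub v (Res M))^⊥ = unrSub v (Res M')` for the local Tate pairing at `v ∉ T`. -/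
theorem orthR_unrSub (S : Finset Nat.Primes) (hpS : pPrime p ∈ S) (hpT : pPrime p ∈ T)
    (M : Rep (ZMod p) GQ) [FiniteDimensional (ZMod p) M]
    (hM : IsSmooth (globalLevel T) M)
    (hMS : IsSmooth (globalLevel S) M) (hM'S : IsSmooth (globalLevel S) (dualTw p M))
    (v : ↥S) (hvT : v.1 ∉ T) :
    orthR (tateB p S hpS M (dualTw p M) hMS hM'S (dictT p M) (dictT_hom_bijective p M) v)
        (unrSub v.1 (Rep.res (primeLocalToGlobal v.1) M)) =
      unrSub v.1 (Rep.res (primeLocalToGlobal v.1) (dualTw p M)) := by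
  have hM' : IsSmooth (globalLevel T) (dualTw p M) :=
    Fermat.Agent.TW.Euler.Fin.isSmooth_dualTw_of_isSmooth T M hpT hM
  have hvp : ((v.1 : Nat.Primes) : ℕ) ≠ p := by
    intro h
    apply hvT
    have : v.1 = pPrime p := Subtype.ext h
    rw [this]
    exact hpT
  obtain ⟨hfin, hle⟩ := finrank_H1_prime_unr_le M hM v.1 hvT hvp
  obtain ⟨hfin', -⟩ := finrank_H1_prime_unr_le (dualTw p M) hM' v.1 hvT hvp
  haveI := hfin
  haveI := hfin'
  symm
  apply Submodule.eq_of_le_of_finrank_le
  · intro b hb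
    rw [mem_orthR_iff]
    intro a ha
    exact tateB_eq_zero_of_unr p S hpS M (dualTw p M) hMS hM'S (dictT p M)
      (dictT_hom_bijective p M) v
      (fun σ hσ m => rho_eq_self_of_mem_inertia M hM v.1 hvT σ hσ m)
      (fun σ hσ m => rho_eq_self_of_mem_inertia (dualTw p M) hM' v.1 hvT σ hσ m) ha hb
  · have h1 := finrank_orthR_add
      (tateB p S hpS M (dualTw p M) hMS hM'S (dictT p M) (dictT_hom_bijective p M) v)
      (tateB_flip_bijective p S hpS M (dualTw p M) hMS hM'S (dictT p M)
        (dictT_hom_bijective p M) v)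
      (unrSub v.1 (Rep.res (primeLocalToGlobal v.1) M))
    have h2 := finrank_unrSub_res M hM v.1 hvT
    have h3 := finrank_unrSub_res (dualTw p M) hM' v.1 hvT
    have h4 : finrank (ZMod p)
        (LC.H1 (levelOf (primeLocalToGlobal v.1)) (Rep.res (primeLocalToGlobal v.1) M)) ≤
        finrank (ZMod p) (Rep.res (primeLocalToGlobal v.1) M).ρ.invariants +
          finrank (ZMod p) (Rep.res (primeLocalToGlobal v.1) (dualTw p M)).ρ.invariants := hle
    omega

end Fermat.Agent.TW.Euler.Enlarge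

end
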