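import Mathlib
import Fermat.Agent.TW.GWB.OutDual
import Fermat.Agent.TW.Euler.Enlarge.Defs
import Fermat.Agent.TW.Euler.Base.Contracts

/-!
# GW-Euler (4a), `T`-enlargement: the contract of the LOCAL block

`T ⊆ T'`, `p ∈ T`, `M` a finite `𝔽_p[G_ℚ]`-module smooth for `globalLevel T`, `M' = dualTw p M`,
`v ∈ T' ∖ T` (so `v ≠ p` and `M`, `M'` are unramified at `v`).

`LocalUnrOut` asks for

* (a) `dim H¹_unr(G_v, Y) = dim H⁰(G_v, Y)` for every finite `Y` smooth for `globalLevel T`, `v ∉ T`;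
* (b) `H¹_unr(G_v, M)^⊥ = H¹_unr(G_v, M')` for the local Tate pairing `tateB` (at level `T'`) of the
  dual pair `(M, dualTw p M, dictT p M)`.

`Assembly.lean` proves `LocalUnrOut → EnlargeOut`.
-/

set_option autoImplicit false

open CategoryTheory Module ExtCitation
open Fermat.Agent.CFT Fermat.Agent.CFT.PT Fermat.Agent.S55
open Fermat.Agent.TW.GW.LinAlg Fermat.Agent.TW.GWB Fermat.Agent.TW.Euler

namespace Fermat.Agent.TW.Euler.Enlarge

local notation "GQ" => (AlgebraicClosure ℚ ≃ₐ[ℚ] AlgebraicClosure ℚ)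

/-- **The local block of (4a).** -/
def LocalUnrOut : Prop :=
  (∀ (p : ℕ) [Fact p.Prime] (T : Finset Nat.Primes), pPrime p ∈ T →
    ∀ (Y : Rep.{0} (ZMod p) GQ) [FiniteDimensional (ZMod p) Y], IsSmooth (globalLevel T) Y →
    ∀ v : Nat.Primes, v ∉ T →
      finrank (ZMod p) ↥(unrSub v (Rep.res (primeLocalToGlobal v) Y)) = h0Loc v Y) ∧
  ∀ (p : ℕ) [Fact p.Prime], p ≠ 2 → ∀ (T T' : Finset Nat.Primes) (hpT : pPrime p ∈ T)
    (hTT' : T ⊆ T') (M : Rep.{0} (ZMod p) GQ) [FiniteDimensional (ZMod p) M]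
    (hM : IsSmooth (globalLevel T) M) (v : ↥T'), v.1 ∉ T →
      orthR (tateB p T' (hTT' hpT) M (dualTw p M) (isSmooth_of_subset hTT' hM)
          (isSmooth_dualTw p T' (hTT' hpT) M (isSmooth_of_subset hTT' hM)) (dictT p M)
          (dictT_hom_bijective p M) v)
        (unrSub v.1 (Rep.res (primeLocalToGlobal v.1) M)) =
      unrSub v.1 (Rep.res (primeLocalToGlobal v.1) (dualTw p M))

end Fermat.Agent.TW.Euler.Enlarge
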