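import Fermat.Agent.TW.Euler.Enlarge.Defs
import Fermat.Agent.S13.InertiaConj
import Fermat.Agent.TW.Loc.LocalSurj

/-!
# PROGRAM G (S56), GW-Euler, node (4a) `EnlargeOut`, part (i): global inflation `T ⊆ T'`

`X : Rep k G_ℚ` smooth for `globalLevel T`, `T ⊆ T'`.

* `isLC₁_of_forall_inertia_eq_zero` (I1) : a cocycle which is level-constant for `globalLevel T'` and
  vanishes on all inertia groups above the primes outside `T` is level-constant for `globalLevel T`;
* `forall_inertia_eq_zero_of_isLC₁` (I2) : the converse;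
* `forall_inertia_eq_zero_of_local` (I3) : if the restriction of a global cocycle to `G_ℓ`, `ℓ ∉ T`,
  is cohomologous to a cocycle vanishing on the local inertia group, then the global cocycle
  vanishes on every inertia group above `ℓ`;
* `mem_range_inflH1_iff` (helper14's literal block (I1), vocabulary of `Enlarge/Defs.lean`): the image
  of the inflation map `LC.H1 (globalLevel T) X → LC.H1 (globalLevel T') X` consists of the classes
  whose restrictions to the `G_ℓ`, `ℓ ∈ T' ∖ T`, are unramified.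
-/

set_option autoImplicit false
set_option linter.unusedSectionVars false
set_option linter.style.haveILetI false

open CategoryTheory groupCohomology Module ExtCitation

namespace Fermat.Agent.TW.Euler.Enlarge

open Fermat.Agent.CFT Fermat.Agent.S55

local notation "Qb" => AlgebraicClosure ℚ
local notation "GQ" => (AlgebraicClosure ℚ ≃ₐ[ℚ] AlgebraicClosure ℚ)

section KerField

local instance instIsAlgClosureQbEnl : IsAlgClosure ℚ Qb := AlgebraicClosure.instIsAlgClosure ℚ
local instance instIsGaloisQbEnl : IsGalois ℚ Qb :=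
  Fermat.Agent.S54.FrobExists.isGalois_rat_algebraicClosure

/-- The kernel field of a hom which is trivial on an open subgroup and on the inertia groups
outside `T`: a finite Galois extension of `ℚ`, unramified outside `T`. -/
theorem exists_kerField {M : Type*} [Monoid M] (f : GQ →* M) (T : Finset Nat.Primes)
    (hopen : ∃ F : IntermediateField ℚ Qb, FiniteDimensional ℚ F ∧ ∀ s ∈ F.fixingSubgroup, f s = 1)
    (hur : ∀ q : Nat.Primes, q ∉ T → ∀ A : ValuationSubring Qb,
      A.LiesOverPrime (q : ℕ) → ∀ g ∈ A.inertiaSubgroupIn ℚ, f g = 1) :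
    ∃ F : IntermediateField ℚ Qb, F.IsUnramifiedOutside T ∧ IsGalois ℚ F ∧
      ∀ s ∈ F.fixingSubgroup, f s = 1 := by
  obtain ⟨F₁, hF₁fd, hF₁⟩ := hopen
  let N : Subgroup GQ := MonoidHom.ker f
  have hN : ∀ s, s ∈ N ↔ f s = 1 := fun s => MonoidHom.mem_ker
  have hle : F₁.fixingSubgroup ≤ N := fun s hs => (hN s).2 (hF₁ s hs)
  have hopen : IsOpen (N : Set GQ) :=
    Subgroup.isOpen_mono hle ((InfiniteGalois.isOpen_iff_finite F₁).2 hF₁fd)
  let Nc : ClosedSubgroup GQ := ⟨N, Subgroup.isClosed_of_isOpen N hopen⟩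
  let E : IntermediateField ℚ Qb := IntermediateField.fixedField N
  have hfix : E.fixingSubgroup = N := InfiniteGalois.fixingSubgroup_fixedField Nc
  have hfd : FiniteDimensional ℚ E := by
    rw [← InfiniteGalois.isOpen_iff_finite, hfix]
    exact hopen
  have hgal : IsGalois ℚ E := by
    have h' : @IsGalois ℚ _ E _ E.algebra' := by
      rw [← InfiniteGalois.normal_iff_isGalois, hfix]
      exact MonoidHom.normal_ker _
    exact Fermat.Agent.S55.isGalois_of_normal E h'.to_normal
  refine ⟨E, ⟨hfd, fun q hq A hA σ hσ => ?_⟩, hgal, fun s hs => ?_⟩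
  · rw [hfix]
    exact (hN σ).2 (hur q hq A hA σ hσ)
  · rw [hfix] at hs
    exact (hN s).1 hs

end KerField

variable {k : Type} [Field k] {T T' : Finset Nat.Primes} {X : Rep k GQ}

/-! ### The affine hom of a cocycle -/

/-- The affine transformations `x ↦ g x + z g` attached to a cocycle. -/
noncomputable def affHom (z : GQ → X) (hz : z ∈ cocycles₁ X) : GQ →* Function.End X where
  toFun g := fun x => X.ρ g x + z g
  map_one' := by
    funext x
    have h1 : z 1 = 0 := cocycles₁_map_one ⟨z, hz⟩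
    show X.ρ 1 x + z 1 = x
    rw [map_one, Module.End.one_apply, h1, add_zero]
  map_mul' g h := by
    funext x
    show X.ρ (g * h) x + z (g * h) = X.ρ g (X.ρ h x + z h) + z g
    rw [(mem_cocycles₁_iff z).mp hz g h, map_mul, Module.End.mul_apply, map_add, add_assoc]

theorem affHom_eq_one_iff (z : GQ → X) (hz : z ∈ cocycles₁ X) (g : GQ) :
    affHom z hz g = 1 ↔ X.ρ g = 1 ∧ z g = 0 := by
  constructor
  · intro h
    have h0 : z g = 0 := by
      have := congrFun h 0
      show z g = 0
      have e : affHom z hz g 0 = X.ρ g 0 + z g := rfl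
      rw [e, map_zero, zero_add] at this
      exact this
    refine ⟨?_, h0⟩
    ext x
    have := congrFun h x
    have e : affHom z hz g x = X.ρ g x + z g := rfl
    rw [e, h0, add_zero] at this
    rw [Module.End.one_apply]
    exact this
  · rintro ⟨h1, h0⟩
    funext x
    show X.ρ g x + z g = x
    rw [h1, h0, add_zero, Module.End.one_apply]

/-! ### Unramifiedness of a smooth module -/

/-- A module which is smooth for `globalLevel T` is unramified outside `T`. -/
theorem rho_apply_eq_self_of_mem_inertia (hX : IsSmooth (globalLevel T) X) {q : Nat.Primes}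
    (hq : q ∉ T) {A : ValuationSubring Qb} (hA : A.LiesOverPrime (q : ℕ)) {g : GQ}
    (hg : g ∈ A.inertiaSubgroupIn ℚ) (x : X) : X.ρ g x = x := by
  obtain ⟨_, ⟨F, -, hF, rfl⟩, hfix⟩ := hX x
  exact hfix g (hF.2 q hq A hA hg)

/-- A finite-dimensional module which is smooth for `globalLevel T` is trivial on a level. -/
theorem exists_level_rho_eq_one [Module.Finite k X] (hX : IsSmooth (globalLevel T) X) :
    ∃ F : IntermediateField ℚ Qb, IsGalois ℚ F ∧ F.IsUnramifiedOutside T ∧
      ∀ s ∈ F.fixingSubgroup, X.ρ s = 1 := by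
  classical
  let b := Module.finBasis k X
  obtain ⟨_, ⟨F, hgal, hF, rfl⟩, hfix⟩ :=
    hX.exists_level_of_finite (Set.finite_range b)
  refine ⟨F, hgal, hF, fun s hs => ?_⟩
  refine b.ext fun i => ?_
  rw [Module.End.one_apply]
  exact hfix (b i) ⟨i, rfl⟩ s hs

/-! ### (I1), (I2) -/

/-- **(I1)** A cocycle which is level-constant for `globalLevel T'` and vanishes on all inertia
groups above the primes outside `T` is level-constant for `globalLevel T`. -/
theorem isLC₁_of_forall_inertia_eq_zero [Module.Finite k X] (hX : IsSmooth (globalLevel T) X)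
    {z : GQ → X} (hz : z ∈ cocycles₁ X) (hz' : (globalLevel T').IsLC₁ z)
    (hI : ∀ q : Nat.Primes, q ∉ T → ∀ A : ValuationSubring Qb, A.LiesOverPrime (q : ℕ) →
      ∀ g ∈ A.inertiaSubgroupIn ℚ, z g = 0) :
    (globalLevel T).IsLC₁ z := by
  obtain ⟨F₀, -, hF₀, hρ⟩ := exists_level_rho_eq_one hX
  obtain ⟨_, ⟨F', -, hF', rfl⟩, hinv⟩ := hz'
  have h1 : z 1 = 0 := cocycles₁_map_one ⟨z, hz⟩
  have hopen : ∃ F : IntermediateField ℚ Qb, FiniteDimensional ℚ F ∧
      ∀ s ∈ F.fixingSubgroup, affHom z hz s = 1 := by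
    haveI := hF₀.1
    haveI := hF'.1
    refine ⟨F₀ ⊔ F', inferInstance, fun s hs => ?_⟩
    rw [affHom_eq_one_iff]
    refine ⟨hρ s (IntermediateField.fixingSubgroup_antitone le_sup_left hs), ?_⟩
    have := hinv 1 s (IntermediateField.fixingSubgroup_antitone le_sup_right hs)
    rw [one_mul, h1] at this
    exact this
  have hur : ∀ q : Nat.Primes, q ∉ T → ∀ A : ValuationSubring Qb,
      A.LiesOverPrime (q : ℕ) → ∀ g ∈ A.inertiaSubgroupIn ℚ, affHom z hz g = 1 := by
    intro q hq A hA g hg
    rw [affHom_eq_one_iff]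
    exact ⟨hρ g (hF₀.2 q hq A hA hg), hI q hq A hA g hg⟩
  obtain ⟨F, hF, hgal, hone⟩ := exists_kerField (affHom z hz) T hopen hur
  refine ⟨_, ⟨F, hgal, hF, rfl⟩, fun g s hs => ?_⟩
  obtain ⟨-, h0⟩ := (affHom_eq_one_iff z hz s).mp (hone s hs)
  rw [(mem_cocycles₁_iff z).mp hz g s, h0, map_zero, zero_add]

/-- **(I2)** A cocycle which is level-constant for `globalLevel T` vanishes on the inertia groups
above the primes outside `T`. -/
theorem forall_inertia_eq_zero_of_isLC₁ {z : GQ → X} (hz : z ∈ cocycles₁ X)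
    (hz' : (globalLevel T).IsLC₁ z) (q : Nat.Primes) (hq : q ∉ T) (A : ValuationSubring Qb)
    (hA : A.LiesOverPrime (q : ℕ)) (g : GQ) (hg : g ∈ A.inertiaSubgroupIn ℚ) : z g = 0 := by
  obtain ⟨_, ⟨F, -, hF, rfl⟩, hinv⟩ := hz'
  have h1 : z 1 = 0 := cocycles₁_map_one ⟨z, hz⟩
  have := hinv 1 g (hF.2 q hq A hA hg)
  rw [one_mul, h1] at this
  exact this

/-! ### (I3): from the local condition at `ℓ` to all inertia groups above `ℓ` -/

/-- The inertia group of the standard place above `ℓ` is in the image of the local Galois group. -/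
theorem exists_primeLocalToGlobal_eq (ℓ : Nat.Primes) {g : GQ}
    (hg : g ∈ (primeLocalPlace ℓ).inertiaSubgroupIn ℚ) :
    ∃ τ : primeLocalGaloisGroup ℓ, primeLocalToGlobal ℓ τ = g := by
  letI : Fact (ℓ : ℕ).Prime := ⟨ℓ.2⟩
  have hD : g ∈ (padicPlace (ℓ : ℕ)).decompositionSubgroup ℚ :=
    ((Fermat.Agent.S14.mem_inertiaSubgroupIn_iff _ g).mp hg).1
  exact Fermat.Agent.TW.Loc.exists_localGaloisToGlobal_eq (ℓ : ℕ) hD

/-- **(I3)** If the restriction to `G_ℓ` (`ℓ ∉ T`) of a global cocycle `z` is cohomologous to a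
cocycle `u` vanishing on the local inertia group, then `z` vanishes on every inertia group above
`ℓ`. -/
theorem forall_inertia_eq_zero_of_local (hX : IsSmooth (globalLevel T) X) {ℓ : Nat.Primes}
    (hℓ : ℓ ∉ T) {z : GQ → X} (hz : z ∈ cocycles₁ X) (u : primeLocalGaloisGroup ℓ → X) (a : X)
    (h : ∀ g : primeLocalGaloisGroup ℓ,
      z (primeLocalToGlobal ℓ g) = u g + (X.ρ (primeLocalToGlobal ℓ g) a - a))
    (hu : ∀ g : primeLocalGaloisGroup ℓ,
      primeLocalToGlobal ℓ g ∈ (primeLocalPlace ℓ).inertiaSubgroupIn ℚ → u g = 0)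
    (A : ValuationSubring Qb) (hA : A.LiesOverPrime (ℓ : ℕ)) (g : GQ)
    (hg : g ∈ A.inertiaSubgroupIn ℚ) : z g = 0 := by
  letI : Fact (ℓ : ℕ).Prime := ⟨ℓ.2⟩
  haveI := Fermat.Agent.S54.FrobExists.isGalois_rat_algebraicClosure
  have hP : (primeLocalPlace ℓ).LiesOverPrime (ℓ : ℕ) := padicPlace_liesOverPrime (ℓ : ℕ)
  have h1 : z 1 = 0 := cocycles₁_map_one ⟨z, hz⟩
  -- the standard place
  have hstd : ∀ i ∈ (primeLocalPlace ℓ).inertiaSubgroupIn ℚ, z i = 0 := by
    intro i hi
    obtain ⟨τ, rfl⟩ := exists_primeLocalToGlobal_eq ℓ hi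
    rw [h τ, hu τ hi, rho_apply_eq_self_of_mem_inertia hX hℓ hP hi a, sub_self, add_zero]
  -- a conjugate place
  obtain ⟨σ, rfl⟩ :=
    Fermat.Agent.S13.exists_smul_valuationSubring_eq (primeLocalPlace ℓ) A ℓ.2 hP hA
  rw [Fermat.Agent.S13.conj_mem_inertiaSubgroupIn_smul] at hg
  set i := σ⁻¹ * g * σ with hi
  have hgi : g = σ * i * σ⁻¹ := by
    rw [hi]
    group
  have hcoc := (mem_cocycles₁_iff z).mp hz
  rw [hgi, hcoc, hcoc, hstd i hg, map_zero, zero_add, map_mul, Module.End.mul_apply,
    rho_apply_eq_self_of_mem_inertia hX hℓ hP hg (z σ⁻¹)]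
  have := hcoc σ σ⁻¹
  rw [mul_inv_cancel, h1] at this
  exact this.symm

/-! ### The image of the inflation map -/

/-- **Block (I1) of (4a).** A class for `globalLevel T'` comes from a class for `globalLevel T` iff
its restrictions to the local groups at the primes of `T' ∖ T` are unramified classes. -/
theorem mem_range_inflH1_iff {T T' : Finset Nat.Primes} (h : T ⊆ T') (M : Rep k GQ)
    [Module.Finite k M] (hM : IsSmooth (globalLevel T) M) (x : LC.H1 (globalLevel T') M) :
    x ∈ LinearMap.range (inflH1 h M) ↔ ∀ v ∈ T', v ∉ T →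
      lcResH1 M (levelCompat_globalLevel (primeLocalToGlobal v) T') x ∈
        unrSub v (Rep.res (primeLocalToGlobal v) M) := by
  constructor
  · rintro ⟨x, rfl⟩ v - hv
    obtain ⟨z, rfl⟩ := Submodule.mkQ_surjective _ x
    rw [lcResH1_inflH1, lcResH1_mk]
    refine ⟨lcResZ₁ M (levelCompat_globalLevel (primeLocalToGlobal v) T) z, ?_, rfl⟩
    intro g hg
    exact forall_inertia_eq_zero_of_isLC₁ z.2.1 z.2.2 v hv _ (by
      letI : Fact (v : ℕ).Prime := ⟨v.2⟩
      exact padicPlace_liesOverPrime (v : ℕ)) _ hg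
  · intro hx
    obtain ⟨z, rfl⟩ := Submodule.mkQ_surjective _ x
    have hzI : ∀ q : Nat.Primes, q ∉ T → ∀ A : ValuationSubring Qb, A.LiesOverPrime (q : ℕ) →
        ∀ g ∈ A.inertiaSubgroupIn ℚ, z.1 g = 0 := by
      intro q hq A hA g hg
      by_cases hqT' : q ∈ T'
      · have hq' := hx q hqT' hq
        change lcResH1 M (levelCompat_globalLevel (primeLocalToGlobal q) T')
          (LC.H1π (globalLevel T') M z) ∈ unrSub q (Rep.res (primeLocalToGlobal q) M) at hq'
        rw [lcResH1_mk] at hq'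
        obtain ⟨u, hu, huz⟩ := hq'
        have hsub := (Submodule.Quotient.eq _).mp huz
        obtain ⟨a, ha⟩ := hsub
        refine forall_inertia_eq_zero_of_local hM hq z.2.1 (fun g => u.1 g) (-a) ?_
          (fun g hg => hu g hg) A hA g hg
        intro τ
        have h1 := congrFun ha τ
        have h2 : ((d₀₁ (Rep.res (primeLocalToGlobal q) M)).hom a) τ =
            M.ρ (primeLocalToGlobal q τ) a - a := rfl
        rw [h2] at h1
        have h3 : (u.1 τ : M) - z.1 (primeLocalToGlobal q τ) =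
            M.ρ (primeLocalToGlobal q τ) a - a := h1.symm
        rw [map_neg]
        have h4 : z.1 (primeLocalToGlobal q τ) =
            u.1 τ - (M.ρ (primeLocalToGlobal q τ) a - a) := by
          rw [← h3]
          abel
        rw [h4]
        abel
      · exact forall_inertia_eq_zero_of_isLC₁ z.2.1 z.2.2 q hqT' A hA g hg
    have hzT : z.1 ∈ LC.Z₁ (globalLevel T) M :=
      ⟨z.2.1, isLC₁_of_forall_inertia_eq_zero hM z.2.1 z.2.2 hzI⟩
    exact ⟨LC.H1π (globalLevel T) M ⟨z.1, hzT⟩, rfl⟩

end Fermat.Agent.TW.Euler.Enlarge
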