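import Mathlib
import Fermat.Agent.TW.Euler.Enlarge.Contract
import Fermat.Agent.TW.Euler.Enlarge.Infl
import Fermat.Agent.TW.GWB.SelmerDual
import Fermat.Agent.TW.GWB.H2F

/-!
# GW-Euler (4a), `T`-enlargement: the assembly `LocalUnrOut → EnlargeOut`

`T ⊆ T'`, `p ∈ T` odd, `M` finite smooth for `globalLevel T`, `M' = dualTw p M`.

* `enlCond T T' M v` : the Selmer condition at `v ∈ T'`: everything for `v ∈ T`, the unramified
  classes for `v ∈ T' ∖ T`;
* `selmer_enlCond` : the Selmer group of `enlCond` in `H¹(G_{T'}, M)` is the image of the inflation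
  from `H¹(G_T, M)` (block (I1));
* `selmer_enlCondD` : the dual Selmer group in `H¹(G_{T'}, M')` is the image of `Ш¹_T(M')`;
* `count_enlarge` : `h¹_T(M) + dim Ш¹_{T'}(M') + Σ_{T' ∖ T} h⁰_v(M') = dim Ш¹_T(M') + h¹_{T'}(M)`
  (`LinAlg.selmer_count` + middle exactness of Poitou–Tate at `T'`);
* `eulerDefect_enlarge`, `enlargeOut_of_local : LocalUnrOut → EnlargeOut`.
-/

set_option autoImplicit false
set_option linter.unusedSectionVars false
set_option linter.style.haveILetI false

open CategoryTheory Module ExtCitation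

noncomputable section

namespace Fermat.Agent.TW.Euler.Enlarge

open Fermat.Agent.CFT Fermat.Agent.CFT.PT Fermat.Agent.S55
open Fermat.Agent.TW.GW.LinAlg Fermat.Agent.TW.GW.Count Fermat.Agent.TW.GWB Fermat.Agent.TW.Euler

local notation "Qb" => AlgebraicClosure ℚ
local notation "GQ" => (AlgebraicClosure ℚ ≃ₐ[ℚ] AlgebraicClosure ℚ)

section Generic

variable {k : Type} [Field k] (T T' : Finset Nat.Primes) (M : Rep k GQ)

/-- The unramified classes inside the wrapper `LocH1 T' M v`. -/
def unrW (v : ↥T') : Submodule k (LocH1 T' M v) :=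
  (unrSub v.1 (Rep.res (primeLocalToGlobal v.1) M)).map (toLocH1 T' M v).toLinearMap

theorem toLocH1_mem_unrW_iff (v : ↥T')
    (y : LC.H1 (levelOf (primeLocalToGlobal v.1)) (Rep.res (primeLocalToGlobal v.1) M)) :
    toLocH1 T' M v y ∈ unrW T' M v ↔ y ∈ unrSub v.1 (Rep.res (primeLocalToGlobal v.1) M) := by
  rw [unrW, Submodule.mem_map]
  constructor
  · rintro ⟨z, hz, hzy⟩
    rwa [← (toLocH1 T' M v).injective hzy]
  · intro hy
    exact ⟨y, hy, rfl⟩

theorem finrank_unrW (v : ↥T') :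
    finrank k ↥(unrW T' M v) =
      finrank k ↥(unrSub v.1 (Rep.res (primeLocalToGlobal v.1) M)) :=
  (Submodule.equivMapOfInjective _ (toLocH1 T' M v).injective _).finrank_eq.symm

/-- The Selmer condition of the `T`-enlargement: everything at `v ∈ T`, unramified at `v ∉ T`. -/
def enlCond (v : ↥T') : Submodule k (LocH1 T' M v) :=
  if v.1 ∈ T then ⊤ else unrW T' M v

/-- The dual Selmer condition: zero at `v ∈ T`, unramified at `v ∉ T`. -/
def enlCondD (v : ↥T') : Submodule k (LocH1 T' M v) :=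
  if v.1 ∈ T then ⊥ else unrW T' M v

variable {T T'}

/-- **The Selmer group of `enlCond` is the image of the inflation map** (block (I1)). -/
theorem selmer_enlCond (h : T ⊆ T') [Module.Finite k M] (hM : IsSmooth (globalLevel T) M) :
    selmer (locW1 T' M) (enlCond T T' M) = LinearMap.range (inflH1 h M) := by
  ext x
  rw [mem_selmer_locW1_iff, mem_range_inflH1_iff h M hM]
  constructor
  · intro hx v hv hvT
    have := hx ⟨v, hv⟩
    rw [enlCond, if_neg hvT, toLocH1_mem_unrW_iff] at this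
    exact this
  · intro hx v
    by_cases hvT : v.1 ∈ T
    · rw [enlCond, if_pos hvT]
      exact Submodule.mem_top
    · rw [enlCond, if_neg hvT, toLocH1_mem_unrW_iff]
      exact hx v.1 v.2 hvT

/-- **The Selmer group of `enlCondD` is the image of `Ш¹_T`.** -/
theorem selmer_enlCondD (h : T ⊆ T') [Module.Finite k M] (hM : IsSmooth (globalLevel T) M) :
    selmer (locW1 T' M) (enlCondD T T' M) = (shaLC₁ T M).map (inflH1 h M) := by
  ext x
  rw [mem_selmer_locW1_iff, Submodule.mem_map]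
  constructor
  · intro hx
    have hr : x ∈ LinearMap.range (inflH1 h M) := by
      rw [mem_range_inflH1_iff h M hM]
      intro v hv hvT
      have := hx ⟨v, hv⟩
      rw [enlCondD, if_neg hvT, toLocH1_mem_unrW_iff] at this
      exact this
    obtain ⟨x₀, rfl⟩ := hr
    refine ⟨x₀, ?_, rfl⟩
    rw [mem_shaLC₁_iff]
    intro q
    have := hx ⟨q.1, h q.2⟩
    rw [enlCondD, if_pos q.2, Submodule.mem_bot, LinearEquiv.map_eq_zero_iff,
      lcResH1_inflH1] at this
    exact this
  · rintro ⟨x₀, hx₀, rfl⟩ v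
    by_cases hvT : v.1 ∈ T
    · rw [enlCondD, if_pos hvT, Submodule.mem_bot, LinearEquiv.map_eq_zero_iff, lcResH1_inflH1]
      exact (mem_shaLC₁_iff T M x₀).1 hx₀ ⟨v.1, hvT⟩
    · rw [enlCondD, if_neg hvT, toLocH1_mem_unrW_iff]
      exact (mem_range_inflH1_iff h M hM _).1 ⟨x₀, rfl⟩ v.1 v.2 hvT

theorem finrank_selmer_enlCond (h : T ⊆ T') [Module.Finite k M]
    (hM : IsSmooth (globalLevel T) M) :
    finrank k ↥(selmer (locW1 T' M) (enlCond T T' M)) = finrank k (LC.H1 (globalLevel T) M) := by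
  rw [selmer_enlCond M h hM]
  exact LinearMap.finrank_range_of_inj (inflH1_injective h M)

theorem finrank_selmer_enlCondD (h : T ⊆ T') [Module.Finite k M]
    (hM : IsSmooth (globalLevel T) M) :
    finrank k ↥(selmer (locW1 T' M) (enlCondD T T' M)) = finrank k ↥(shaLC₁ T M) := by
  rw [selmer_enlCondD M h hM]
  exact (Submodule.equivMapOfInjective _ (inflH1_injective h M) _).finrank_eq.symm

end Generic

section Count

variable (p : ℕ) [hp : Fact p.Prime] {T T' : Finset Nat.Primes} (hpT : pPrime p ∈ T)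
  (hTT' : T ⊆ T') (M : Rep.{0} (ZMod p) GQ) [FiniteDimensional (ZMod p) M]
  (hM : IsSmooth (globalLevel T) M)

/-- The orthogonal of `enlCond` is `enlCondD` (local block (b)). -/
theorem orthR_enlCond (hloc : LocalUnrOut) (hp2 : p ≠ 2) (v : ↥T') :
    orthR (tateWD p T' (hTT' hpT) M (isSmooth_of_subset hTT' hM) v) (enlCond T T' M v) =
      enlCondD T T' (dualTw p M) v := by
  by_cases hvT : v.1 ∈ T
  · rw [enlCond, if_pos hvT, enlCondD, if_pos hvT]
    exact orthR_top_eq_bot _ (tateWD_flip_bijective p T' (hTT' hpT) M _ v).1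
  · rw [enlCond, if_neg hvT, enlCondD, if_neg hvT]
    have hb := hloc.2 p hp2 T T' hpT hTT' M hM v hvT
    ext y
    obtain ⟨y, rfl⟩ := (toLocH1 T' (dualTw p M) v).surjective y
    rw [toLocH1_mem_unrW_iff, ← hb, mem_orthR_iff, mem_orthR_iff]
    constructor
    · intro hy x hx
      have := hy (toLocH1 T' M v x) ((toLocH1_mem_unrW_iff T' M v x).2 hx)
      rwa [tateWD, tateW_apply, LinearEquiv.symm_apply_apply, LinearEquiv.symm_apply_apply]
        at this
    · intro hy x hx
      obtain ⟨x, rfl⟩ := (toLocH1 T' M v).surjective x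
      rw [tateWD, tateW_apply, LinearEquiv.symm_apply_apply, LinearEquiv.symm_apply_apply]
      exact hy x ((toLocH1_mem_unrW_iff T' M v x).1 hx)

include hpT hTT' hM in
/-- Local count: `dim L_v + (v ∈ T ? 0 : h⁰_v(M')) = h¹_v(M)`. -/
theorem finrank_enlCond_add (hloc : LocalUnrOut) (hp2 : p ≠ 2) (v : ↥T') :
    finrank (ZMod p) ↥(enlCond T T' M v) +
        (if v.1 ∈ T then 0 else h0Loc v.1 (dualTw p M)) =
      finrank (ZMod p) (LocH1 T' M v) := by
  haveI : FiniteDimensional (ZMod p) (LocH1 T' M v) :=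
    fd_LocH1 p T' M (isSmooth_of_subset hTT' hM) v
  by_cases hvT : v.1 ∈ T
  · rw [if_pos hvT, add_zero, enlCond, if_pos hvT]
    exact finrank_top (ZMod p) _
  · have h1 := finrank_orthR_add (tateWD p T' (hTT' hpT) M (isSmooth_of_subset hTT' hM) v)
      (tateWD_flip_bijective p T' (hTT' hpT) M _ v) (enlCond T T' M v)
    rw [orthR_enlCond p hpT hTT' M hM hloc hp2 v, enlCondD, if_neg hvT, finrank_unrW] at h1
    haveI := fd_dualTw p M
    have h2 := hloc.1 p T hpT (dualTw p M) (isSmooth_dualTw p T hpT M hM) v.1 hvT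
    rw [if_neg hvT, ← h2, add_comm]
    exact h1

include hTT' in
/-- `Σ_{v ∈ T'} (v ∈ T ? 0 : f v) + Σ_{v ∈ T} f v = Σ_{v ∈ T'} f v`. -/
theorem sum_ite_add_sum (f : Nat.Primes → ℕ) :
    ∑ v : ↥T', (if v.1 ∈ T then 0 else f v.1) + ∑ ℓ ∈ T, f ℓ = ∑ ℓ ∈ T', f ℓ := by
  rw [Finset.sum_coe_sort T' (fun ℓ => if ℓ ∈ T then 0 else f ℓ),
    ← Finset.sum_sdiff (f := f) hTT']
  congr 1
  rw [Finset.sum_ite, Finset.sum_const_zero, zero_add]
  refine Finset.sum_congr ?_ fun _ _ => rfl
  ext ℓ
  simp [Finset.mem_sdiff]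

include hpT hTT' hM in
/-- **The count of the `T`-enlargement**:
`h¹_T(M) + dim Ш¹_{T'}(M') + Σ_{T' ∖ T} h⁰_v(M') = dim Ш¹_T(M') + h¹_{T'}(M)`. -/
theorem count_enlarge (hloc : LocalUnrOut) (hp2 : p ≠ 2) :
    finrank (ZMod p) (LC.H1 (globalLevel T) M) +
        finrank (ZMod p) ↥(shaLC₁ T' (dualTw p M)) +
        ∑ v : ↥T', (if v.1 ∈ T then 0 else h0Loc v.1 (dualTw p M)) =
      finrank (ZMod p) ↥(shaLC₁ T (dualTw p M)) +
        finrank (ZMod p) (LC.H1 (globalLevel T') M) := by
  classical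
  have hpT' : pPrime p ∈ T' := hTT' hpT
  have hMT' : IsSmooth (globalLevel T') M := isSmooth_of_subset hTT' hM
  haveI := fd_dualTw p M
  have hD : IsSmooth (globalLevel T) (dualTw p M) := isSmooth_dualTw p T hpT M hM
  have hDT' : IsSmooth (globalLevel T') (dualTw p M) := isSmooth_dualTw p T' hpT' M hMT'
  haveI := fd_H1_global p T' hpT' hp2 M hMT'
  haveI := fd_H1_global p T' hpT' hp2 (dualTw p M) hDT'
  haveI : ∀ v : ↥T', FiniteDimensional (ZMod p) (LocH1 T' M v) := fun v => fd_LocH1 p T' M hMT' v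
  have hcount := selmer_count (locW1 T' M) (locW1 T' (dualTw p M))
    (totalPairing fun v => tateWD p T' hpT' M hMT' v)
    (totalPairing_flip_bijective _ fun v => tateWD_flip_bijective p T' hpT' M hMT' v)
    (fun y => by
      simpa only [totalPairing_apply, tateWD] using
        middle_W p T' hpT' M (dualTw p M) hMT' hDT' (dictT p M) (dictT_hom_bijective p M) hp2 y)
    (Submodule.pi Set.univ (enlCond T T' M))
  rw [orthR_pi, finrank_pi_submodule, Module.finrank_pi_fintype] at hcount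
  have h1 : finrank (ZMod p) ↥((Submodule.pi Set.univ (enlCond T T' M)).comap (locW1 T' M)) =
      finrank (ZMod p) (LC.H1 (globalLevel T) M) := finrank_selmer_enlCond M hTT' hM
  have h2 : finrank (ZMod p) ↥((Submodule.pi Set.univ fun v =>
        orthR (tateWD p T' hpT' M hMT' v) (enlCond T T' M v)).comap (locW1 T' (dualTw p M))) =
      finrank (ZMod p) ↥(shaLC₁ T (dualTw p M)) := by
    have : (fun v => orthR (tateWD p T' hpT' M hMT' v) (enlCond T T' M v)) =
        enlCondD T T' (dualTw p M) :=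
      funext fun v => orthR_enlCond p hpT hTT' M hM hloc hp2 v
    rw [this]
    exact finrank_selmer_enlCondD (dualTw p M) hTT' hD
  have h3 : finrank (ZMod p) ↥(LinearMap.ker (locW1 T' (dualTw p M))) =
      finrank (ZMod p) ↥(shaLC₁ T' (dualTw p M)) := by
    rw [ker_locW1]
    rfl
  have h4 : ∑ v : ↥T', finrank (ZMod p) ↥(enlCond T T' M v) +
      ∑ v : ↥T', (if v.1 ∈ T then 0 else h0Loc v.1 (dualTw p M)) =
      ∑ v : ↥T', finrank (ZMod p) (LocH1 T' M v) := by
    rw [← Finset.sum_add_distrib]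
    exact Finset.sum_congr rfl fun v _ => finrank_enlCond_add p hpT hTT' M hM hloc hp2 v
  rw [h1, h2, h3] at hcount
  omega

include hpT hTT' in
/-- **The Euler defect does not depend on `T`** (given the local block). -/
theorem eulerDefect_enlarge (hloc : LocalUnrOut) (hp2 : p ≠ 2)
    (hMT' : IsSmooth (globalLevel T') M) : eulerDefect hM = eulerDefect hMT' := by
  have hpT' : pPrime p ∈ T' := hTT' hpT
  haveI := fd_dualTw p M
  have hD : IsSmooth (globalLevel T) (dualTw p M) := isSmooth_dualTw p T hpT M hM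
  have hDT' : IsSmooth (globalLevel T') (dualTw p M) := isSmooth_dualTw p T' hpT' M hMT'
  have hc := count_enlarge p hpT hTT' M hM hloc hp2
  have hs := sum_ite_add_sum hTT' (fun ℓ => h0Loc ℓ (dualTw p M))
  have hF := h2FormulaOut p hp2 T hpT M (dualTw p M) hM hD ⟨Iso.refl _⟩
  have hF' := h2FormulaOut p hp2 T' hpT' M (dualTw p M) hMT' hDT' ⟨Iso.refl _⟩
  have e0 : hG hM 0 = hG hMT' 0 :=
    (LC.h0Equiv hM).finrank_eq.trans (LC.h0Equiv hMT').finrank_eq.symm
  have e0' : hG hD 0 = hG hDT' 0 :=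
    (LC.h0Equiv hD).finrank_eq.trans (LC.h0Equiv hDT').finrank_eq.symm
  have e1 : hG hM 1 = finrank (ZMod p) (LC.H1 (globalLevel T) M) := (LC.h1Equiv hM).finrank_eq
  have e1' : hG hMT' 1 = finrank (ZMod p) (LC.H1 (globalLevel T') M) :=
    (LC.h1Equiv hMT').finrank_eq
  unfold eulerDefect
  omega

end Count

/-- **(4a) from its local block.** -/
theorem enlargeOut_of_local (hloc : LocalUnrOut) : EnlargeOut := by
  intro p _ hp2 T T' hpT hTT' N _ hN hN' _ D _ _ k' _ _ _ φ
  have : N.FiniteIndex := (globalLevel T).finiteIndex hN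
  have : Finite (GQ ⧸ N) := Subgroup.finite_quotient_of_finiteIndex
  haveI : Module.Finite (ZMod p) (baseMod (p := p) N D φ) :=
    inferInstanceAs (Module.Finite (ZMod p)
      (Representation.coindV D.subtype (chiRep (p := p) φ)))
  exact eulerDefect_enlarge p hpT hTT' (baseMod (p := p) N D φ) (isSmooth_baseMod N D hN φ)
    hloc hp2 (isSmooth_baseMod N D hN' φ)

end Fermat.Agent.TW.Euler.Enlarge

end
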